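import Fermat.Statements.S49
import Fermat.Agent.MOD.DeligneSerreLift

set_option autoImplicit false
open CuspForm EisensteinWeightOne CongruenceSubgroup ModularFormClass
open FLT FLT.AbstractIntegralStructure

namespace Fermat.Agent.S49

open Fermat.Agent.MOD

theorem bridgeProduct_coeff_mod_three (a : ℕ → ℤ) (n : ℕ) :
    (3 : ℤ) ∣ (bridgeProduct a).coeff n - a n := by
  unfold bridgeProduct
  rw [PowerSeries.coeff_mul, ← Finset.add_sum_erase _ _
    (Finset.HasAntidiagonal.mem_antidiagonal.2 (Nat.add_zero n) : (n, 0) ∈ _)]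
  simp only [PowerSeries.coeff_mk, e1Chi3In, PowerSeries.coeff_map, e1Chi3, if_true, map_one,
    mul_one, add_sub_cancel_left]
  refine Finset.dvd_sum fun x hx => ?_
  rw [Finset.mem_erase, Finset.HasAntidiagonal.mem_antidiagonal] at hx
  have hx2 : x.2 ≠ 0 := fun h => hx.1 (Prod.ext (by simp only; omega) h)
  rw [if_neg hx2]
  exact ⟨a x.1 * (2 * sigmaChi x.2), by simp; ring⟩

theorem natCast_sub_chiNegThree (p : ℕ) : (3 : ℤ) ∣ (p : ℤ) - chiNegThree p := by
  rw [chiNegThree]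
  split_ifs <;> omega

theorem result
    {N : ℕ} [NeZero N] (h : CuspForm.HasIntegralBasis N) {a : ℕ → ℤ}
    (heig : FormalHecke.IsEigensystem
      (fun ℓ => if ℓ ∣ N then 0 else ((chiNegThree ℓ : ℤ) : ℤ)) a)
    (hreal : CuspForm.IsLatticeRealized N a) :
    ∃ (f : CuspForm (Gamma0 N) 2) (_ : f.IsNormalizedEigenform)
      (𝔪' : Ideal (integralClosure ℤ ℂ)), 𝔪'.IsMaximal ∧
      ((3 : ℕ) : integralClosure ℤ ℂ) ∈ 𝔪' ∧
      ∀ (ℓ : ℕ) (_ : ℓ.Prime) (_ : ¬ ℓ ∣ N),
        ∃ c : integralClosure ℤ ℂ, (c : ℂ) = ModularFormClass.qCoeff f ℓ ∧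
          c - (a ℓ : integralClosure ℤ ℂ) ∈ 𝔪' := by
  obtain ⟨f, hf, af, haf, hbr⟩ := hreal
  have hbot : ∀ x : ℂ, x ∈ (⊥ : Subring ℂ) ↔ ∃ m : ℤ, x = m := fun x => by
    simp [Subring.mem_bot, eq_comm]
  have hint : CuspForm.HasIntegralStructure N 2 := by
    refine eq_top_iff.2 (h ▸ Submodule.span_mono fun g hg => Submodule.subset_span fun n => ?_)
    exact (hbot _).1 (hg n)
  have hcong : ∀ n, (3 : ℤ) ∣ af n - a n := fun n => by
    have := dvd_add (hbr n) (bridgeProduct_coeff_mod_three a n)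
    rwa [sub_add_sub_cancel] at this
  obtain ⟨g, hg, 𝔪', hmax, hthree, hc⟩ := deligneSerre_lift hint Nat.prime_three
    (af := af) (b := a) (fun n => (haf n).symm) (by simpa [heig.1] using hcong 1) fun p hp n => by
    have h₁ := heig.2 p hp n
    obtain ⟨i, hi⟩ := hcong (n * p)
    obtain ⟨j, hj⟩ := hcong (n / p)
    obtain ⟨l, hl⟩ := hcong n
    obtain ⟨e, he⟩ := natCast_sub_chiNegThree p
    rw [mul_comm p n] at h₁
    by_cases hpN : p ∣ N <;> by_cases hpn : p ∣ n <;>
      simp only [hpN, hpn, if_true, if_false, mul_zero, zero_mul, add_zero, and_true, and_false,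
        not_true, not_false_iff, Nat.cast_ofNat] at h₁ ⊢
    · exact ⟨i - a p * l, by linear_combination hi + h₁ - a p * hl⟩
    · exact ⟨i - a p * l, by linear_combination hi + h₁ - a p * hl⟩
    · exact ⟨i + p * j + a (n / p) * e - a p * l, by
        linear_combination hi + h₁ + (p : ℤ) * hj + a (n / p) * he - a p * hl⟩
    · exact ⟨i - a p * l, by linear_combination hi + h₁ - a p * hl⟩
  exact ⟨g, hg, 𝔪', hmax, hthree, fun p hp _ => hc p hp⟩

end Fermat.Agent.S49
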