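import Fermat.Statements.S19
import Fermat.Agent.FlatJ.Jacobian
import Fermat.Agent.FlatJ.Torsion
import Fermat.Agent.RED.X0LiftAll

set_option autoImplicit false
open ModularCurve
open ModularCurve

namespace Fermat.Agent.S19

theorem result
    (p : ℕ) [NeZero p] (ℓ : ℕ) [Fact ℓ.Prime] (hℓp : ¬ ℓ ∣ p) (k : ℕ) :
    ∃ (H : Type) (_ : CommRing H) (_ : HopfAlgebra (GaloisRep.ratLocalizedAt ℓ) H),
      Module.Finite (GaloisRep.ratLocalizedAt ℓ) H ∧ Module.Flat (GaloisRep.ratLocalizedAt ℓ) H ∧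
      Coalgebra.IsCocomm (GaloisRep.ratLocalizedAt ℓ) H ∧
      ∃ e : WithConv (H →ₐ[GaloisRep.ratLocalizedAt ℓ] AlgebraicClosure ℚ) ≃
          ↥(Submodule.torsionBy ℤ (JZero p) ((ℓ : ℤ) ^ k)),
        (∀ f g, e (f * g) = e f + e g) ∧
        ∀ (σ : AlgebraicClosure ℚ ≃ₐ[ℚ] AlgebraicClosure ℚ)
          (f g : WithConv (H →ₐ[GaloisRep.ratLocalizedAt ℓ] AlgebraicClosure ℚ)),
          (∀ h : H, g h = σ (f h)) → ((e g : JZero p)) = σ • (e f : JZero p) := by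
  obtain ⟨A, hA⟩ := Galois.exists_liesOverPrime (L := AlgebraicClosure ℚ) (Fact.out : ℓ.Prime)
  have hℓ : ℓ.Prime := Fact.out
  obtain ⟨hac, hinf⟩ := FlatJ.residueField_instances hℓ hA
  have := FlatJ.nonempty_place p
  have := FlatJ.finite_torsionBy p ℓ hℓ k
  obtain ⟨D, P, hP⟩ := FlatJ.exists_redSetup hℓ hℓp hA (RED.x0Lift hℓ hℓp hA)
  let N : AddSubgroup (JZero p) := (Submodule.torsionBy ℤ (JZero p) ((ℓ : ℤ) ^ k)).toAddSubgroup
  have : Finite N := this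
  have hN : ∀ σ : FlatJ.Gam, ∀ x ∈ N, σ • x ∈ N := fun σ x hx =>
    (Submodule.mem_torsionBy_iff _ _).2 (by
      rw [← smul_zero σ, ← (Submodule.mem_torsionBy_iff _ _).1 hx]
      exact (map_zsmul (DistribMulAction.toAddMonoidHom (JZero p) σ) _ x).symm)
  obtain ⟨H, i1, i2, hfin, hflat, hco, e, he, hσ⟩ :=
    FlatJ.hasModel_torsion D P hP hA hℓ N hN
  exact ⟨H, i1, i2, hfin, hflat, hco, e, he, fun σ f g h => congrArg Subtype.val (hσ σ f g h)⟩

end Fermat.Agent.S19
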