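import Fermat.Statements.S54
import Fermat.Agent.Deform.FrobExist

set_option autoImplicit false
open GaloisRep GaloisRep.DeformationRingData

namespace Fermat.Agent.S54

theorem result {𝒪 : Type} [CommRing 𝒪] [IsDomain 𝒪] [IsDiscreteValuationRing 𝒪] [IsAdicComplete (IsLocalRing.maximalIdeal 𝒪) 𝒪] {ρbar : ResidualGaloisRep (IsLocalRing.ResidueField 𝒪)} {𝒟 : ∀ ⦃A : Type⦄ [CommRing A] [IsLocalRing A] [Algebra 𝒪 A], GaloisRepAdic A → Prop} (D : GaloisRep.DeformationRingData 𝒪 ρbar 𝒟) {N : ℕ} [NeZero N] {S : Set ℕ} {θ : CuspForm.heckeAlgebra N 2 S →+* IsLocalRing.ResidueField 𝒪} {T : Type} [CommRing T] [IsLocalRing T] [IsNoetherianRing T] [IsAdicComplete (IsLocalRing.maximalIdeal T) T] [Algebra 𝒪 T] [IsLocalHom (algebraMap 𝒪 T)] [Module.Finite 𝒪 T] [Module.Free 𝒪 T] (H : CuspForm.HeckeGaloisRepDatum N S 𝒪 θ T) (hS : ∀ q : ℕ, q.Prime → q ∣ N → q ∈ S) (h𝒟 : 𝒟 H.ρ) (hres : H.ρ.residual.IsEquiv (ρbar.baseChangeAlong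 (IsLocalRing.ResidueField.map (algebraMap 𝒪 T)))) : ∃ φ : D.R →ₐ[𝒪] T, Function.Surjective φ ∧ ∃ hφ : IsLocalHom (φ : D.R →+* T), (D.ρ.baseChangeAlong (φ : D.R →+* T) hφ).IsEquiv H.ρ := by
  obtain ⟨φ, ⟨hφ, ⟨e⟩⟩, -⟩ := D.universal T H.residue_surjective H.ρ h𝒟 hres
  refine ⟨φ, ?_, hφ, ⟨e⟩⟩
  rw [← AlgHom.range_eq_top, eq_top_iff, ← H.adjoin_range_π, Algebra.adjoin_le_iff]
  rintro _ ⟨t, rfl⟩
  show H.π t ∈ φ.range
  have hgen : ∀ g (hg : g ∈ CuspForm.heckeGenerators N 2 S),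
      H.π ⟨g, Algebra.subset_adjoin hg⟩ ∈ φ.range := by
    rintro g (⟨ℓ, hℓ, hℓN, hℓS, rfl⟩ | ⟨q, hqN, hq, hqS, rfl⟩)
    · obtain ⟨A, hA⟩ := Fermat.Agent.Deform.exists_valuationSubring_liesOverPrime hℓ
      obtain ⟨σ, hσ⟩ := Fermat.Agent.Deform.exists_isFrobeniusAt hℓ hA
      let : Algebra D.R T := (φ : D.R →+* T).toAlgebra
      have h1 := H.charpoly_frob ℓ hℓ hℓN hℓS A hA σ hσ
      have he : H.ρ.ρ σ = e.toLinearEquiv.conj ((D.ρ.ρ σ).baseChange T) := by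
        refine LinearMap.ext fun x => ?_
        obtain ⟨y, rfl⟩ := e.toLinearEquiv.surjective x
        rw [LinearEquiv.conj_apply_apply, LinearEquiv.symm_apply_apply]
        exact (e.map_apply σ y).symm
      have h2 : LinearMap.charpoly (H.ρ.ρ σ) =
          (LinearMap.charpoly (D.ρ.ρ σ)).map (φ : D.R →+* T) := by
        rw [he]
        erw [LinearEquiv.charpoly_conj, LinearMap.charpoly_baseChange]
        rfl
      rw [h1] at h2
      have h3 := congrArg (Polynomial.coeff · 1) h2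
      refine ⟨-(LinearMap.charpoly (D.ρ.ρ σ)).coeff 1, ?_⟩
      show φ (-_) = _
      rw [map_neg]
      simp [Polynomial.coeff_X_pow, Polynomial.coeff_C] at h3
      rw [← h3]
      simp [CuspForm.heckeAlgebra.T]
    · exact absurd (hS q hq hqN) hqS
  obtain ⟨t, ht⟩ := t
  induction ht using Algebra.adjoin_induction with
  | mem g hg => exact hgen g hg
  | algebraMap r =>
    change H.π (algebraMap ℤ _ r) ∈ φ.range
    rw [eq_intCast, map_intCast]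
    exact intCast_mem _ r
  | add x y hx hy hx' hy' =>
    change H.π (⟨x, hx⟩ + ⟨y, hy⟩) ∈ φ.range
    rw [map_add]; exact add_mem hx' hy'
  | mul x y hx hy hx' hy' =>
    change H.π (⟨x, hx⟩ * ⟨y, hy⟩) ∈ φ.range
    rw [map_mul]; exact mul_mem hx' hy'

end Fermat.Agent.S54
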