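-- Statement S53 (row 47): existence of the universal deformation ring.
import Fermat.Statements.S53
import Fermat.Agent.Deform.Universal

set_option autoImplicit false
open GaloisRep

namespace Fermat.Agent.S53

open IsLocalRing Fermat.Agent.Deform

theorem result
    (𝒪 : Type) [CommRing 𝒪] [IsDomain 𝒪] [IsDiscreteValuationRing 𝒪]
    [IsAdicComplete (IsLocalRing.maximalIdeal 𝒪) 𝒪] [Finite (IsLocalRing.ResidueField 𝒪)]
    (ρbar : ResidualGaloisRep (IsLocalRing.ResidueField 𝒪))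
    (𝒟 : ∀ ⦃A : Type⦄ [CommRing A] [IsLocalRing A] [Algebra 𝒪 A], GaloisRepAdic A → Prop)
    (habs : ρbar.IsAbsolutelyIrreducible)
    (h𝒟 : GaloisRep.IsDeformationCondition 𝒪 𝒟)
    (hbar : 𝒟 (GaloisRepAdic.ofResidualGaloisRep ρbar))
    (hfin : GaloisRep.TangentFinite 𝒪 ρbar 𝒟) :
    Nonempty (GaloisRep.DeformationRingData 𝒪 ρbar 𝒟) := by
  obtain ⟨D⟩ := slice_nonempty ρbar habs
  obtain ⟨T⟩ := exists_tower (𝒟 := 𝒟) (D := D) habs h𝒟 hbar hfin
  refine ⟨{
    R := T.Ring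
    residue_surjective := T.residue_surjective_ring
    absIrr := habs
    ρ := toAdic (T.univRep h𝒟) (T.univRep_cont h𝒟)
    isOfType := T.univRep_type h𝒟
    residual_isEquiv := residual_isEquiv_of_isLift _ (T.univRep_lift h𝒟)
    universal := ?_ }⟩
  intro A _ _ _ _ _ _ hres ρA hA hAres
  obtain ⟨M, hMc, hMl, hMn, hMe⟩ := exists_normalised_model D ρA hAres
  -- `𝒟` holds for the normalised model
  have hMD : 𝒟 (toAdic M hMc) := by
    refine (h𝒟.iff_forall_surjective ‹_› hres _).mpr ?_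
    intro B _ _ _ hB q hq hqs
    obtain ⟨e⟩ := hMe
    exact h𝒟.of_isEquiv hB ⟨GaloisRepAdic.Equiv.baseChangeAlong _ hq e⟩
      ((h𝒟.iff_forall_surjective ‹_› hres _).mp hA hB q hq hqs)
  obtain ⟨φ, hφl, hφM⟩ := T.exists_hom h𝒟 hres M hMc hMl hMn hMD
  refine ⟨φ, ⟨hφl, ?_⟩, ?_⟩
  · refine isEquiv_trans' (baseChange_toAdic _ hφl _ _) (isEquiv_symm' ?_)
    rwa [toAdic_congr (isContRep_mapRep _ hφl (T.univRep_cont h𝒟)) hMc hφM]
  · rintro φ' ⟨hφ'l, he⟩
    have he' : (toAdic (mapRep (φ' : T.Ring →+* A) (T.univRep h𝒟))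
        (isContRep_mapRep _ hφ'l (T.univRep_cont h𝒟))).IsEquiv (toAdic M hMc) :=
      isEquiv_trans' (isEquiv_symm' (baseChange_toAdic _ hφ'l _ _)) (isEquiv_trans' he hMe)
    obtain ⟨g, hg⟩ := (toAdic_isEquiv_iff _ _ _ _).mp he'
    have hlift : IsLift ρbar A (mapRep (φ' : T.Ring →+* A) (T.univRep h𝒟)) := fun σ i j => by
      have h := map_nonunit (φ' : T.Ring →+* A) _ (T.univRep_lift h𝒟 σ i j)
      rw [map_sub, RingHom.coe_coe, AlgHom.commutes] at h
      exact h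
    have hnorm : D.IsNormalised A (mapRep (φ' : T.Ring →+* A) (T.univRep h𝒟)) := fun a => by
      show φ' (entryAt (T.univRep h𝒟) (D.s a)) = _
      rw [T.univRep_norm h𝒟 a, AlgHom.commutes]
    have hM : mapRep (φ' : T.Ring →+* A) (T.univRep h𝒟) = M :=
      D.normalised_unique habs hres hlift hMl hnorm hMn g hg
    refine T.hom_unique h𝒟 hφ'l hφl fun σ i j => ?_
    exact congrFun (congrFun (DFunLike.congr_fun (hM.trans hφM.symm) σ) i) j

end Fermat.Agent.S53
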