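import Fermat.Statements.S24
import Fermat.Agent.MF.Genus.Main
import Fermat.Agent.MF.Coeff.FieldK
import Fermat.Agent.HK.Realize

set_option autoImplicit false
open ModularCurve

namespace Fermat.Agent.S24

/-- `ℚ̄(X₀(N))` inside `MF_N`, through any embedding `ℚ̄ → ℂ`. -/
noncomputable def barToComplex : AlgebraicClosure ℚ →+* ℂ :=
  haveI : Algebra.IsAlgebraic ℚ (AlgebraicClosure ℚ) := AlgebraicClosure.isAlgebraic ℚ
  (IsAlgClosed.lift (R := ℚ) (S := AlgebraicClosure ℚ) (M := ℂ)).toRingHom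

/-- `ℚ̄(X₀(N))` as a `JData`. -/
noncomputable def jDataBar (N : ℕ) [NeZero N] :
    Fermat.Agent.MF.PlaceOrbits.JData barToComplex N
      (ModularCurve.modularFunctionFieldBar N) where
  j := Fermat.Agent.MF.Coeff.jElem (AlgebraicClosure ℚ) N
  mem_MF _ hx := Fermat.Agent.HK.coeffMap_mem_MFField _ hx
  map_j := by
    rw [Fermat.Agent.MF.Coeff.coe_jElem, ← Fermat.Agent.MF.Coeff.coeffEmb_jq_eq,
      Fermat.Agent.HK.coeffMap_coeffEmb_complex, Fermat.Agent.MF.coeffEmb_jq]
  finrank_eq := Fermat.Agent.MF.Coeff.finrank_adjoin_jElem (AlgebraicClosure ℚ) N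

theorem result (N : ℕ) [NeZero N]
    [AlgebraicCurve.HasCanonicalDivisor (K := AlgebraicClosure ℚ) (F := ↥(ModularCurve.modularFunctionFieldBar N))] :
    (AlgebraicCurve.genus (AlgebraicClosure ℚ) ↥(ModularCurve.modularFunctionFieldBar N) : ℚ)
      = ModularCurve.genusFormula N :=
  Fermat.Agent.MF.Genus.genus_eq_genusFormula (jDataBar N)

end Fermat.Agent.S24
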