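import Fermat.Statements.S05
import Fermat.Agent.ECLocal.Main
import Fermat.Agent.ECLocal.Frey

set_option autoImplicit false
open WeierstrassCurve WeierstrassCurve.Affine WeierstrassCurve.Affine.Point
open CuspForm ModularFormClass UpperHalfPlane
open FreyPackage

namespace Fermat.Agent.S05

theorem result (P : FreyPackage) {q : ℕ} (hq : q.Prime) (hq2 : q ≠ 2) (hqp : q ≠ P.p) : P.GaloisRepUnramifiedAt q := by
  unfold FreyPackage.GaloisRepUnramifiedAt
  rw [← Fermat.Agent.ECLocal.freyCurveInt_map]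
  have hqp' : ¬ q ∣ P.p := fun h => hqp ((Nat.prime_dvd_prime_iff_eq hq P.pp).1 h)
  by_cases hΔ : (q : ℤ) ∣ P.freyCurveInt.Δ
  · refine Fermat.Agent.ECLocal.galoisRepUnramifiedAt_of_mult P.freyCurveInt
      (Fermat.Agent.ECLocal.freyCurveInt_Δ_ne_zero P) hq P.pp hqp hΔ
      (Fermat.Agent.ECLocal.isSemistableModel_freyCurveInt P q hq hΔ) ?_
    rw [Fermat.Agent.ECLocal.padicValInt_freyCurveInt_Δ P hq hq2]
    exact Dvd.intro_left 2 rfl |>.mul_right _
  · exact Fermat.Agent.ECLocal.galoisRepUnramifiedAt_of_good P.freyCurveInt hq hΔ hqp'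

end Fermat.Agent.S05
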