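import Fermat.Statements.S02
-- import your own Fermat.Agent.* helpers here

set_option autoImplicit false
open FreyPackage

namespace Fermat.Agent.S02

theorem exists_package_of_coprime (a b c : ℤ) (ha : a ≠ 0) (hb : b ≠ 0) (hc : c ≠ 0) (p : ℕ)
    (pp : p.Prime) (hp5 : 5 ≤ p) (H : a ^ p + b ^ p = c ^ p) (hg : gcd a b = 1)
    (hb2 : (2 : ℤ) ∣ b) : Nonempty FreyPackage := by
  have hodd : Odd p := pp.odd_of_ne_two (by omega)
  have ha2 : ¬ (2 : ℤ) ∣ a := by
    intro h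
    have := dvd_gcd h hb2
    rw [hg] at this
    norm_num at this
  have hcases : a % 4 = 1 ∨ a % 4 = 3 := by omega
  rcases hcases with h | h
  · refine ⟨⟨-a, -b, -c, neg_ne_zero.mpr ha, neg_ne_zero.mpr hb, neg_ne_zero.mpr hc, p, pp, hp5,
      ?_, ?_, ?_, ?_⟩⟩
    · rw [hodd.neg_pow, hodd.neg_pow, hodd.neg_pow]
      linarith
    · rw [← Int.coe_gcd] at hg ⊢
      simpa using hg
    · have : ((-a : ℤ) : ZMod 4) = ((3 : ℤ) : ZMod 4) := by
        rw [ZMod.intCast_eq_intCast_iff_dvd_sub]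
        omega
      exact_mod_cast this
    · rw [ZMod.intCast_zmod_eq_zero_iff_dvd]
      exact_mod_cast (dvd_neg.mpr hb2)
  · refine ⟨⟨a, b, c, ha, hb, hc, p, pp, hp5, H, hg, ?_, ?_⟩⟩
    · have : ((a : ℤ) : ZMod 4) = ((3 : ℤ) : ZMod 4) := by
        rw [ZMod.intCast_eq_intCast_iff_dvd_sub]
        omega
      exact_mod_cast this
    · rw [ZMod.intCast_zmod_eq_zero_iff_dvd]
      exact_mod_cast hb2

theorem result (a b c : ℤ) (ha : a ≠ 0) (hb : b ≠ 0) (hc : c ≠ 0) (p : ℕ) (pp : p.Prime) (hp5 : 5 ≤ p) (H : a ^ p + b ^ p = c ^ p) : Nonempty FreyPackage := by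
  have hodd : Odd p := pp.odd_of_ne_two (by omega)
  obtain ⟨g, x, y, hg0, hxy, rfl, rfl⟩ :=
    Int.exists_gcd_one' (m := a) (n := b) (Int.gcd_pos_of_ne_zero_left b ha)
  have hdvd : (g : ℤ) ^ p ∣ c ^ p := ⟨x ^ p + y ^ p, by rw [← H]; ring⟩
  obtain ⟨z, rfl⟩ := (Int.pow_dvd_pow_iff pp.ne_zero).mp hdvd
  have hx : x ≠ 0 := left_ne_zero_of_mul ha
  have hy : y ≠ 0 := left_ne_zero_of_mul hb
  have hz : z ≠ 0 := right_ne_zero_of_mul hc
  have H' : x ^ p + y ^ p = z ^ p := by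
    have hne : ((g : ℤ)) ^ p ≠ 0 := pow_ne_zero _ (right_ne_zero_of_mul ha)
    apply mul_left_cancel₀ hne
    linear_combination (norm := ring_nf) H
  have hxy' : gcd x y = 1 := by
    rw [← Int.coe_gcd, hxy]
    rfl
  have h2 : (2 : ℤ) ∣ x ∨ (2 : ℤ) ∣ y ∨ (2 : ℤ) ∣ z := by
    by_contra hcon
    simp only [not_or, ← even_iff_two_dvd, Int.not_even_iff_odd] at hcon
    obtain ⟨h1, h2, h3⟩ := hcon
    have hev : Even (x ^ p + y ^ p) := (h1.pow).add_odd (h2.pow)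
    rw [H'] at hev
    exact Int.not_even_iff_odd.mpr h3.pow hev
  rcases h2 with h | h | h
  · exact exists_package_of_coprime y x z hy hx hz p pp hp5 (by linarith)
      (by rw [gcd_comm, hxy']) h
  · exact exists_package_of_coprime x y z hx hy hz p pp hp5 H' hxy' h
  · refine exists_package_of_coprime x (-z) (-y) hx (neg_ne_zero.mpr hz) (neg_ne_zero.mpr hy) p pp
      hp5 ?_ ?_ (dvd_neg.mpr h)
    · rw [hodd.neg_pow, hodd.neg_pow]
      linarith
    · have := (FreyPackage.gcdab_eq_gcdac pp.pos H').symm.trans hxy'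
      rw [← Int.coe_gcd] at this ⊢
      simpa using this

end Fermat.Agent.S02
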