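import Fermat.Statements.S07
import Fermat.Prelude.Thm_ModularForm_sturm_bound_Gamma0

set_option autoImplicit false
open WeierstrassCurve WeierstrassCurve.Affine WeierstrassCurve.Affine.Point
open CuspForm ModularFormClass UpperHalfPlane
open ModularForm

namespace Fermat.Agent.S07

theorem index_Gamma0_two_le : (CongruenceSubgroup.Gamma0 2).index ≤ 3 := by
  have hle : CongruenceSubgroup.Gamma 2 ≤ CongruenceSubgroup.Gamma0 2 := fun g hg => by
    simp only [CongruenceSubgroup.Gamma_mem, CongruenceSubgroup.Gamma0_mem] at hg ⊢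
    exact hg.2.2.1
  have hΓ : (CongruenceSubgroup.Gamma 2).index ≤ 6 := by
    have hcard : Nat.card (Matrix.SpecialLinearGroup (Fin 2) (ZMod 2)) = 6 := by
      rw [Nat.card_eq_fintype_card]
      decide
    rw [CongruenceSubgroup.Gamma, Subgroup.index_ker, ← hcard]
    exact Subgroup.card_le_card_group _
  have hmul := Subgroup.relIndex_mul_index hle
  have h1 : (CongruenceSubgroup.Gamma 2).relIndex (CongruenceSubgroup.Gamma0 2) ≠ 1 := by
    intro h
    have hT : ModularGroup.T ∈ CongruenceSubgroup.Gamma 2 := Subgroup.relIndex_eq_one.mp h (by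
      simp [CongruenceSubgroup.Gamma0_mem, ModularGroup.coe_T])
    simp [CongruenceSubgroup.Gamma_mem, ModularGroup.coe_T] at hT
  have h0 : (CongruenceSubgroup.Gamma 2).relIndex (CongruenceSubgroup.Gamma0 2) ≠ 0 := by
    intro h
    rw [h, zero_mul] at hmul
    exact Subgroup.FiniteIndex.index_ne_zero hmul.symm
  nlinarith [Nat.two_le_iff _ |>.mpr ⟨h0, h1⟩]

theorem result (f : CuspForm (CongruenceSubgroup.Gamma0 2) 2) : f = 0 := by
  apply CuspForm.toModularFormₗ_injective
  rw [_root_.map_zero]
  apply ModularForm.sturm_bound_Gamma0 2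
  intro n hn
  have := index_Gamma0_two_le
  have : n = 0 := by omega
  subst this
  exact CuspFormClass.qExpansion_coeff_zero f one_pos (by simp [CongruenceSubgroup.strictPeriods_Gamma0])

end Fermat.Agent.S07
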