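import Fermat.Statements.S57
import Fermat.Agent.ALG.DepthFree

set_option autoImplicit false
set_option linter.style.haveILetI false
open Algebra Algebra.PatchingLevel

namespace Fermat.Agent.ALG

open IsLocalRing RingTheory.Sequence in
/-- At the bottom level of a patching system the patched module is free over the power series. -/
theorem patchingLevel_free_N
    {𝒪 : Type} [CommRing 𝒪] [IsDomain 𝒪] [IsDiscreteValuationRing 𝒪]
    {r : ℕ} {R : Type} [CommRing R] [Algebra 𝒪 R]
    {M : Type} [AddCommGroup M] [Module R M] [Nontrivial M]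
    (L : Algebra.PatchingLevel 𝒪 r R M ⊥) :
    Module.Free (MvPowerSeries (Fin r) 𝒪) L.N ∧
      Module.Finite (MvPowerSeries (Fin r) 𝒪) L.N ∧ Nontrivial L.N := by
  haveI : IsDomain (MvPowerSeries (Fin r) 𝒪) := NoZeroDivisors.to_isDomain _
  let g : (Fin L.d → MvPowerSeries (Fin r) 𝒪) →+ L.N :=
    { toFun := fun c => ∑ i, L.φ (c i) • L.b i
      map_zero' := by simp
      map_add' := fun c c' => by simp [add_smul, Finset.sum_add_distrib] }
  have hginj : Function.Injective g := by
    rw [injective_iff_map_eq_zero]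
    intro c hc
    funext i
    simpa using (L.b_rel c).1 hc i
  have hgsurj : Function.Surjective g := fun x => by
    obtain ⟨c, hc⟩ := L.b_span x
    exact ⟨c, hc.symm⟩
  let e : (Fin L.d → MvPowerSeries (Fin r) 𝒪) ≃+ L.N := AddEquiv.ofBijective g ⟨hginj, hgsurj⟩
  have he : ∀ (a : MvPowerSeries (Fin r) 𝒪) (c : Fin L.d → MvPowerSeries (Fin r) 𝒪),
      e (a • c) = L.φ a • e c := by
    intro a c
    show ∑ i, L.φ ((a • c) i) • L.b i = L.φ a • ∑ i, L.φ (c i) • L.b i
    simp [Finset.smul_sum, mul_smul]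
  haveI : Nontrivial L.N := L.π_surjective.nontrivial
  haveI : Nontrivial (Fin L.d → MvPowerSeries (Fin r) 𝒪) := e.toEquiv.nontrivial
  haveI : Module.Finite (MvPowerSeries (Fin r) 𝒪) L.N := by
    refine Module.Finite.of_surjective
      (Fintype.linearCombination (MvPowerSeries (Fin r) 𝒪) L.b) fun x => ?_
    obtain ⟨c, hc⟩ := L.b_span x
    exact ⟨fun i => L.φ (c i), by rw [hc, Fintype.linearCombination_apply]⟩
  obtain ⟨rs, hl, hm, hreg⟩ :=
    ((freeCrit_mvPowerSeries 𝒪 r).2 (Fin L.d → MvPowerSeries (Fin r) 𝒪)).2 inferInstance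
  refine ⟨((freeCrit_mvPowerSeries 𝒪 r).2 L.N).1
    ⟨rs.map L.φ, by simp [hl], ?_, ?_⟩, inferInstance, inferInstance⟩
  · simp only [List.mem_map, forall_exists_index, and_imp]
    rintro _ a ha rfl
    rw [mem_maximalIdeal, mem_nonunits_iff]
    intro hu
    obtain ⟨i⟩ : Nonempty (Fin L.d) := by
      by_contra h
      rw [not_nonempty_iff] at h
      exact not_subsingleton (Fin L.d → MvPowerSeries (Fin r) 𝒪) inferInstance
    obtain ⟨c, hc⟩ := e.surjective (hu.unit⁻¹.val • e (fun _ => 1))
    have h1 : a • c = fun _ => 1 := e.injective (by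
      rw [he, hc, smul_smul, IsUnit.mul_val_inv, one_smul])
    exact (hm a ha) (IsUnit.of_mul_eq_one _ (congrFun h1 i))
  · exact (e.isWeaklyRegular_congr <| List.forall₂_map_right_iff.mpr <|
      List.forall₂_same.mpr fun a _ => he a).1 hreg

end Fermat.Agent.ALG

namespace Fermat.Agent.S57

theorem result
    {𝒪 : Type} [CommRing 𝒪] [IsDomain 𝒪] [IsDiscreteValuationRing 𝒪]
    {r : ℕ} {R : Type} [CommRing R] [Algebra 𝒪 R]
    {M : Type} [AddCommGroup M] [Module R M] [Nontrivial M]
    (L : Algebra.PatchingLevel 𝒪 r R M ⊥) :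
    Module.Free R M ∧ Module.annihilator R M = ⊥ ∧
      RingHom.ker L.ψ = Ideal.span (Set.range fun i : Fin r => L.φ (MvPowerSeries.X i)) := by
  obtain ⟨hfree, hfin, hnt⟩ := Fermat.Agent.ALG.patchingLevel_free_N L
  set I := Ideal.span (Set.range fun i : Fin r => L.φ (MvPowerSeries.X i)) with hI
  let β := Module.Free.chooseBasis (MvPowerSeries (Fin r) 𝒪) L.N
  haveI : Nonempty (Module.Free.ChooseBasisIndex (MvPowerSeries (Fin r) 𝒪) L.N) :=
    β.index_nonempty
  -- coordinates of elements of `I • ⊤` lie in `I`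
  have hcoord : ∀ x ∈ I • (⊤ : Submodule (MvPowerSeries (Fin r) 𝒪) L.N), ∀ i,
      β.repr x i ∈ I := by
    intro x hx i
    refine Submodule.smul_induction_on hx (fun a ha n _ => ?_) (fun x y hx hy => ?_)
    · simpa using I.mul_mem_right (β.repr n i) ha
    · simpa using I.add_mem hx hy
  have hle : I ≤ RingHom.ker L.ψ := by
    rw [hI, Ideal.span_le]
    rintro _ ⟨i, rfl⟩
    exact L.ψ_φ_X i
  have hker : RingHom.ker L.ψ = I := by
    refine le_antisymm (fun f hf => ?_) hle
    obtain ⟨i⟩ := ‹Nonempty (Module.Free.ChooseBasisIndex (MvPowerSeries (Fin r) 𝒪) L.N)›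
    have hmem := hcoord _ ((L.ker_π (f • β i)).1
      (by rw [L.π_smul, (RingHom.mem_ker.1 hf), zero_smul])) i
    simpa using hmem
  have hindep : LinearIndependent R fun i => L.π (β i) := by
    rw [linearIndependent_iff']
    intro s c hc i hi
    choose g hg using fun j => L.ψ_surjective (c j)
    have h0 : L.π (∑ j ∈ s, g j • β j) = 0 := by
      simpa [map_sum, L.π_smul, hg] using hc
    have hmem : g i ∈ I := by
      classical
      simpa [map_sum, Finsupp.single_apply, hi] using hcoord _ ((L.ker_π _).1 h0) i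
    rw [← hg i]
    exact hle hmem
  have hspan : ⊤ ≤ Submodule.span R (Set.range fun i => L.π (β i)) := by
    intro m _
    obtain ⟨x, rfl⟩ := L.π_surjective m
    rw [← β.linearCombination_repr x, Finsupp.linearCombination_apply, Finsupp.sum, map_sum]
    refine Submodule.sum_mem _ fun i _ => ?_
    rw [L.π_smul]
    exact Submodule.smul_mem _ _ (Submodule.subset_span ⟨i, rfl⟩)
  haveI : Module.Free R M := Module.Free.of_basis (Module.Basis.mk hindep hspan)
  refine ⟨inferInstance, ?_, hker⟩
  rw [eq_bot_iff]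
  intro a ha
  obtain ⟨i⟩ := ‹Nonempty (Module.Free.ChooseBasisIndex (MvPowerSeries (Fin r) 𝒪) L.N)›
  exact linearIndependent_iff'.1 hindep {i} (fun _ => a)
    (by simpa using Module.mem_annihilator.1 ha (L.π (β i))) i (Finset.mem_singleton_self i)

end Fermat.Agent.S57
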