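import Fermat.Statements.S03
import Fermat.Agent.LT.Wiring.TopRows
import Fermat.Agent.LT.Wiring.Leaves
import Fermat.Agent.LL.Final
import Fermat.Agent.S05
import Fermat.Agent.S07
import Fermat.Agent.S09

set_option autoImplicit false
open FreyPackage

namespace Fermat.Agent.S03

theorem result (P : FreyPackage) : False := by
  exact Fermat.Agent.LT.TopRows.stmt03_top Fermat.Agent.LT.stmtWeightOne
    (Fermat.Agent.LT.stmtCubeFree_of_keyHigh Fermat.Agent.CarayolHigh.stmtKeyHigh)
    (Fermat.Agent.LT.Leaves.stmt59_of_stmt38 Fermat.Agent.LL.stmt38)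
    (fun P _ hq hq2 hqp => Fermat.Agent.S05.result P hq hq2 hqp) Fermat.Agent.S07.result
    Fermat.Agent.S09.result
    (Fermat.Agent.LT.Leaves.stmt43_of_stmt38 Fermat.Agent.LL.stmt38)
    Fermat.Agent.LT.Leaves.stmt44 P

end Fermat.Agent.S03
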