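import Fermat.Statements.S06
import Fermat.Agent.LT.Wiring.TopRows
import Fermat.Agent.LT.Wiring.Leaves
import Fermat.Agent.LL.Final

set_option autoImplicit false
open WeierstrassCurve WeierstrassCurve.Affine WeierstrassCurve.Affine.Point
open CuspForm ModularFormClass UpperHalfPlane
open FreyPackage

namespace Fermat.Agent.S06

theorem result (P : FreyPackage) : ∃ N : ℕ, P.IsConductorLevel N ∧ P.ModularRepOfLevel N := by
  exact Fermat.Agent.LT.TopRows.stmt06_top Fermat.Agent.LT.stmtWeightOne
    (Fermat.Agent.LT.stmtCubeFree_of_keyHigh Fermat.Agent.CarayolHigh.stmtKeyHigh)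
    (Fermat.Agent.LT.Leaves.stmt59_of_stmt38 Fermat.Agent.LL.stmt38) P

end Fermat.Agent.S06
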