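import Fermat.Statements.S21
import Fermat.Agent.MF.PeriodES
import Fermat.Agent.MF.CuspAssembly

set_option autoImplicit false
open ModularCurve

namespace Fermat.Agent.S21

theorem result (N : ℕ) [NeZero N] :
    Function.Injective (ModularCurve.periodHomPair N)
      ∧ LinearMap.range (ModularCurve.periodHomPair N)
          = ModularCurve.Period.parabolicHoms ℂ (CongruenceSubgroup.Gamma0 N) ℂ :=
  Fermat.Agent.MF.Prim.periodHomPair_eichlerShimura_of_le N
    (Fermat.Agent.MF.finrank_cuspForm_eq_genusFormula N).symm.le

end Fermat.Agent.S21
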