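import Fermat.Statements.S25
import Fermat.Agent.Jac.Curve.Model
import Fermat.Agent.Jac.Chart.Representable
import Fermat.Agent.Jac.Chart.Effective
import Fermat.Agent.Jac.AJ.CellsCover
import Fermat.Agent.Jac.AJ.CellsCount
import Fermat.Agent.Jac.Final.Designation

set_option autoImplicit false
set_option autoImplicit false
universe u
open CategoryTheory CategoryTheory.Limits AlgebraicGeometry AlgebraicGeometry.RelPicard NeronModelInfra
  GoodReductionJacobian
open AlgebraicGeometry AlgebraicGeometry.RelPicard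

namespace Fermat.Agent.S25

theorem result
    (k : Type u) [Field k] [IsAlgClosed k] {C : Scheme.{u}} (c : C ⟶ Spec (CommRingCat.of k))
    [IsProper c] [SmoothOfRelativeDimension 1 c] [IsIntegral C]
    (ε : SchemeHomOver (𝟙 (Spec (CommRingCat.of k))) c) :
    ∃ D : RelativePic0Designation k c,
      Nonempty (RepresentsRelSubPic c ε (algEquivZeroCut c ε) D) ∧
        Smooth D.toBase ∧ IsProper D.toBase ∧ GeometricallyConnected D.toBase := by
  obtain ⟨M⟩ := Fermat.Agent.Jac.Curve.exists_curveModel c ε
  obtain ⟨J⟩ := Fermat.Agent.Jac.exists_picScheme M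
    (fun K _ _ ξ => Fermat.Agent.Jac.exists_twist_hasCell M K ξ)
  obtain ⟨N, W, hW⟩ := Fermat.Agent.Jac.exists_twist_hasCell M k 1
  obtain ⟨g, V, hne, hpts⟩ := Fermat.Agent.Jac.exists_effective_open_of_cells M J
    ⟨N, W, one_mul (Fermat.Agent.Jac.Pic.map (pullback.fst c (Fermat.Agent.Jac.specAlg k k)) N) ▸ hW⟩
    (Fermat.Agent.Jac.exists_prod_pointClass M)
  exact Fermat.Agent.Jac.exists_designation_of_picScheme M J g V hne hpts

end Fermat.Agent.S25
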