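import Fermat.Statements.S26
import Fermat.Agent.AV.Degree.Count

set_option autoImplicit false
set_option autoImplicit false
open CategoryTheory CategoryTheory.Limits AlgebraicGeometry NeronModelInfra GoodReductionJacobian
universe u
open GoodReductionJacobian GoodReductionJacobian.RelativeGroupLaw

namespace Fermat.Agent.S26

open Fermat.Agent.AV

theorem nsmul_eq {K : Type u} [Field K] (X : AbVar K) {R : Type u} [CommRing R] [Algebra K R]
    (n : ℕ) (x : Pt X R) : X.law.nsmul (specStr K R) n x = n • x := by
  induction n with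
  | zero => exact (zero_nsmul x).symm
  | succ n ih =>
    rw [RelativeGroupLaw.nsmul_succ, ih]
    exact (succ_nsmul x n).symm

theorem natCard_torsionPoint {K : Type u} [Field K] [IsAlgClosed K] (X : AbVar K)
    (t : Spec (CommRingCat.of K) ⟶ Spec (CommRingCat.of K)) (ht : t = specStr K K)
    {n : ℕ} (hn : (n : K) ≠ 0) :
    Nat.card {x : SchemeHomOver t X.str // X.law.IsTorsionPoint t n x} = n ^ (2 * X.dim) := by
  subst ht
  rw [← natCard_torsion X hn]
  refine Nat.card_congr (Equiv.subtypeEquivRight fun x => ?_)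
  show X.law.nsmul (specStr K K) n x = X.law.one (specStr K K) ↔
    @HSMul.hSMul ℕ (Pt X K) (Pt X K) _ n x = (0 : Pt X K)
  rw [nsmul_eq X n x]
  rfl

theorem result
    (K : Type u) [Field K] [IsAlgClosed K] {A : Scheme.{u}} (f : A ⟶ Spec (CommRingCat.of K))
    (L : RelativeGroupLaw K f) (hc : L.IsCommutative) (hA : AbelianSchemePropertyBundle K f)
    (g : ℕ) [SmoothOfRelativeDimension g f] (n : ℕ) (hn : (n : K) ≠ 0) :
    Nat.card {x : SchemeHomOver (𝟙 (Spec (CommRingCat.of K))) f //
        L.IsTorsionPoint (𝟙 (Spec (CommRingCat.of K))) n x} = n ^ (2 * g) := by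
  exact natCard_torsionPoint ⟨A, f, L, hc, hA, g, inferInstance⟩ _ specStr_self.symm hn

end Fermat.Agent.S26
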