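import Fermat.Statements.S28
import Fermat.Agent.Igusa.ChartTensor
import Fermat.Agent.Igusa.PullbackTwoCharts

set_option autoImplicit false
open AlgebraicGeometry CategoryTheory CategoryTheory.Limits ModularCurve ModularCurve.IgusaScheme
noncomputable section
set_option autoImplicit false
open ModularCurve ModularCurve.IgusaScheme

namespace Fermat.Agent.S28

open scoped TensorProduct
open GaloisRep

variable (N : ℕ) [NeZero N] (ℓ : ℕ) [Fact ℓ.Prime]
  (K : Type) [Field K] [CharP K ℓ] [Algebra ↥(ratLocalizedAt ℓ) K]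

theorem isIntegral_chart_pullback {T : ↥(modularFunctionFieldFull N)}
    (ι : Spec (CommRingCat.of ↥(chartAlg N ℓ {T})) ⟶ ModularCurve.IgusaScheme N ℓ)
    (hι : ι ≫ igusaTo N ℓ =
      Spec.map (CommRingCat.ofHom (algebraMap ↥(ratLocalizedAt ℓ) ↥(chartAlg N ℓ {T}))))
    (hdom : IsDomain (↥(chartAlg N ℓ {T}) ⊗[↥(ratLocalizedAt ℓ)] K)) :
    IsIntegral (pullback (ι ≫ igusaTo N ℓ)
      (Spec.map (CommRingCat.ofHom (algebraMap ↥(ratLocalizedAt ℓ) K)))) := by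
  let e := pullback.congrHom hι (rfl : Spec.map (CommRingCat.ofHom (algebraMap ↥(ratLocalizedAt ℓ) K)) = _) ≪≫
    pullbackSpecIso ↥(ratLocalizedAt ℓ) ↥(chartAlg N ℓ {T}) K
  haveI : IsIntegral (Spec (CommRingCat.of (↥(chartAlg N ℓ {T}) ⊗[↥(ratLocalizedAt ℓ)] K))) := by
    rw [affine_isIntegral_iff]
    exact hdom
  haveI : Nonempty ↥(pullback (ι ≫ igusaTo N ℓ)
      (Spec.map (CommRingCat.ofHom (algebraMap ↥(ratLocalizedAt ℓ) K)))) :=
    ⟨e.inv (Classical.arbitrary _)⟩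
  exact isIntegral_of_isOpenImmersion e.hom

set_option maxHeartbeats 4000000 in
set_option synthInstance.maxHeartbeats 400000 in
theorem result
    (N : ℕ) [NeZero N] (ℓ : ℕ) [Fact ℓ.Prime] (hℓN : ¬ ℓ ∣ N)
    (K : Type) [Field K] [CharP K ℓ] [Algebra ↥(GaloisRep.ratLocalizedAt ℓ) K] :
    IsIntegral ↑(pullback (igusaTo N ℓ)
      (Spec.map (CommRingCat.ofHom (algebraMap ↥(GaloisRep.ratLocalizedAt ℓ) K)))) := by
  refine Fermat.Agent.Igusa.isIntegral_pullback_of_two (igusaTo N ℓ) _ (ιFin N ℓ) (ιInf N ℓ)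
    (mem_range_ιFin_or_mem_range_ιInf N ℓ) (fFin N ℓ) (fInf N ℓ) (glue_condition N ℓ) ?_
    (isIntegral_chart_pullback N ℓ K _ (ιFin_igusaTo N ℓ)
      (Fermat.Agent.Igusa.tensorHom_injective K hℓN Fermat.Agent.Igusa.coe_jFull_eq
        Fermat.Agent.Igusa.isParam_j))
    (isIntegral_chart_pullback N ℓ K _ (ιInf_igusaTo N ℓ)
      (Fermat.Agent.Igusa.tensorHom_injective K hℓN Fermat.Agent.Igusa.coe_jFull_inv_eq
        Fermat.Agent.Igusa.isParam_jInv))
  have h : (fFin N ℓ ≫ ιFin N ℓ) ≫ igusaTo N ℓ = Spec.map (CommRingCat.ofHom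
      (algebraMap ↥(ratLocalizedAt ℓ) ↥(chartAlgMid N ℓ))) := by
    rw [Category.assoc, ιFin_igusaTo, ← Spec.map_comp, ← CommRingCat.ofHom_comp]
    congr 2
  let e := pullback.congrHom h (rfl : Spec.map (CommRingCat.ofHom (algebraMap ↥(ratLocalizedAt ℓ) K)) = _) ≪≫
    pullbackSpecIso ↥(ratLocalizedAt ℓ) ↥(chartAlgMid N ℓ) K
  have := Fermat.Agent.Igusa.nontrivial_tensor (N := N) (ℓ := ℓ) K
    Fermat.Agent.Igusa.integralGens_mid
  exact ⟨e.inv (Classical.arbitrary (PrimeSpectrum (↥(chartAlgMid N ℓ) ⊗[↥(ratLocalizedAt ℓ)] K)))⟩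

end Fermat.Agent.S28
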