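import Fermat.Statements.S42
import Fermat.Agent.TraceFn.EigenformAttach
import Fermat.Agent.TraceFn.Spec
import Fermat.Agent.GAL.S29Tate

set_option autoImplicit false
open FreyPackage

namespace Fermat.Agent.S42

theorem result (P : FreyPackage) :
    ∀ M : ℕ, 0 < M → P.EigenformResidualAttachmentAt M := by
  exact Fermat.Agent.TraceFn.eigenformResidualAttachmentAt_of_exists_residualGaloisRep
    (fun {N g} hg {p} hp {k} _ _ φ => Fermat.Agent.GAL.exists_residualGaloisRep_of_specialization
      (fun N' p' _ hc => Fermat.Agent.TraceFn.specializationExists_jZero N' p' hc) hg hp φ) P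

end Fermat.Agent.S42
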