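import Fermat.Statements.S55
import Fermat.Agent.CFT.Sha.Descent
import Fermat.Agent.CFT.Sha.Arch

set_option autoImplicit false
set_option linter.style.haveILetI false
open CategoryTheory Module groupCohomology ExtCitation
open groupCohomology

namespace Fermat.Agent.S55

open Fermat.Agent.CFT Fermat.Agent.CFT.Sha

variable {p : ℕ} [Fact p.Prime] (hp2 : p ≠ 2) (S : Finset Nat.Primes)
  (M : Rep (ZMod p) (AlgebraicClosure ℚ ≃ₐ[ℚ] AlgebraicClosure ℚ))

include hp2 in
lemma finrank_sha1_eq : finrank (ZMod p) (sha₁ S M) = finrank (ZMod p) (Sha1 S M) := by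
  have hmem : sha₁ S M = (Sha1 S M).map (G1 S M).subtype := by
    ext x
    constructor
    · intro hx
      refine ⟨⟨x, hx.1⟩, ?_, rfl⟩
      have hloc := LinearMap.mem_ker.1 hx.2
      exact LinearMap.mem_ker.2 (funext fun q => Subtype.ext (congrFun hloc (Sum.inr q)))
    · rintro ⟨⟨x, hxS⟩, hxk, rfl⟩
      refine ⟨hxS, LinearMap.mem_ker.2 (funext fun v => ?_)⟩
      rcases v with u | q
      · exact arch_H1_eq_zero hp2 _ _
      · exact congrArg Subtype.val (congrFun (LinearMap.mem_ker.1 hxk) q)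
  rw [hmem]
  exact (Submodule.equivMapOfInjective _ (Submodule.injective_subtype _) _).finrank_eq.symm

include hp2 in
lemma finrank_sha2_eq : finrank (ZMod p) (sha₂ S M) = finrank (ZMod p) (Sha2 S M) := by
  have hmem : sha₂ S M = (Sha2 S M : Submodule (ZMod p) (continuousH2S S M)) := by
    ext x
    constructor
    · intro hx
      refine (LinearMap.mem_ker (M := G2 S M) (f := loc2T S M)).2 (funext fun q => ?_)
      exact by
        obtain ⟨c, rfl⟩ := Submodule.mkQ_surjective
          ((levelCoboundariesS₂ S M).comap (levelCocyclesS₂ S M).subtype) x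
        exact congrFun ((LinearMap.mem_ker (M := continuousH2S S M) (f := locTotal₂S S M)).1 hx)
          (Sum.inr q)
    · intro hx
      refine (LinearMap.mem_ker (M := continuousH2S S M) (f := locTotal₂S S M)).2
        (funext fun v => ?_)
      rcases v with u | q
      · exact arch_H2_eq_zero hp2 _ _
      · obtain ⟨c, rfl⟩ := Submodule.mkQ_surjective
          ((levelCoboundariesS₂ S M).comap (levelCocyclesS₂ S M).subtype) x
        exact congrFun ((LinearMap.mem_ker (M := G2 S M) (f := loc2T S M)).1 hx) q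
  rw [hmem]
  rfl

theorem result
    {p : ℕ} [Fact p.Prime] (hp2 : p ≠ 2) (S : Finset Nat.Primes) (hpS : pPrime p ∈ S)
    (M : Rep (ZMod p) (AlgebraicClosure ℚ ≃ₐ[ℚ] AlgebraicClosure ℚ))
    [FiniteDimensional (ZMod p) M]
    (hsm : ∀ m : M, ∃ F : IntermediateField ℚ (AlgebraicClosure ℚ), FiniteDimensional ℚ F ∧
      ∀ s ∈ F.fixingSubgroup, M.ρ s m = m)
    (hMur : ∀ q : Nat.Primes, q ∉ S → ∀ A : ValuationSubring (AlgebraicClosure ℚ),
      A.LiesOverPrime (q : ℕ) → ∀ g ∈ A.inertiaSubgroupIn ℚ, M.ρ g = 1) :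
    ∃ B : sha₁ S (M.dualTwist (cycloChar p)) →ₗ[ZMod p] sha₂ S M →ₗ[ZMod p] ZMod p,
      (∀ y, (∀ x, B y x = 0) → y = 0) ∧ (∀ x, (∀ y, B y x = 0) → x = 0) := by
  have hM : IsSmoothRep (Levels.unr S) (MonoidHom.id GQ) M := isSmoothRep_unr S M hsm hMur
  haveI : FiniteDimensional (ZMod p) (M.dualTwist (cycloChar p)) :=
    inferInstanceAs (FiniteDimensional (ZMod p) (Module.Dual (ZMod p) M))
  have hA : IsSmoothRep (Levels.unr S) (MonoidHom.id GQ) (M.dualTwist (cycloChar p)) := by
    obtain ⟨F₀, hF₀, h₀⟩ := exists_level_cycloChar (p := p) hpS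
    let b := Module.finBasis (ZMod p) M
    choose F hF hfix using fun i => hM (b i)
    obtain ⟨F', hF', hle⟩ := Levels.exists_ge (L := Levels.unr S) F hF
    refine fun φ => ⟨F₀ ⊔ F', (Levels.unr S).sup _ _ hF₀ hF', fun s hs => ?_⟩
    have hs0 : cycloChar p s = 1 := h₀ s (IntermediateField.fixingSubgroup_antitone le_sup_left hs)
    have hs1 : ∀ t ∈ (F₀ ⊔ F').fixingSubgroup, M.ρ t = 1 := fun t ht => b.ext fun i => hfix i t
      (IntermediateField.fixingSubgroup_antitone ((hle i).trans le_sup_right) ht)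
    change ((cycloChar p s : (ZMod p)ˣ) : ZMod p) • ((φ : Module.Dual (ZMod p) M) ∘ₗ M.ρ s⁻¹) = φ
    rw [hs0, Units.val_one, one_smul, hs1 s⁻¹ (inv_mem hs)]
    rfl
  haveI : FiniteDimensional (ZMod p) (continuousH1S S (M.dualTwist (cycloChar p))) :=
    finite_H1c_unr S hpS _ hA
  haveI := finite_H2c_unr hp2 S hpS _ hM
  haveI : FiniteDimensional (ZMod p) (sha₁ S (M.dualTwist (cycloChar p))) :=
    Submodule.finiteDimensional_of_le
      (S₂ := continuousH1S S (M.dualTwist (cycloChar p))) inf_le_left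
  haveI : FiniteDimensional (ZMod p) (continuousH2S S M) := finite_H2c_unr hp2 S hpS _ hM
  have he := (finrank_sha1_eq hp2 S (M.dualTwist (cycloChar p))).trans
    ((finrank_sha_eq hp2 hpS hA hM (evalPair M)).trans (finrank_sha2_eq hp2 S M).symm)
  let e : sha₁ S (M.dualTwist (cycloChar p)) ≃ₗ[ZMod p] Module.Dual (ZMod p) (sha₂ S M) :=
    LinearEquiv.ofFinrankEq _ _ (he.trans Subspace.dual_finrank_eq.symm)
  refine ⟨e.toLinearMap, fun y hy => ?_, fun x hx => ?_⟩
  · exact e.map_eq_zero_iff.1 (LinearMap.ext hy)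
  · refine (Module.forall_dual_apply_eq_zero_iff (ZMod p) x).1 fun φ => ?_
    have := hx (e.symm φ)
    rwa [LinearEquiv.coe_coe, LinearEquiv.apply_symm_apply] at this

end Fermat.Agent.S55
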